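import Mathlib
import Fermat.Agent.H3.MW.Interfaces

/-!
# P-MW row 783 (GTA-3, helper57): a `d`-tuple of points is a point of the `d`-th tensor power
-/

set_option autoImplicit false

noncomputable section

namespace Fermat.Agent.H57.MW

open PiTensorProduct

/-- The multilinear map `x ↦ ∏ a, P a (x a)`. -/
def prodPointMultilinear {R : Type} [CommRing R] [Algebra ℚ R] {d : ℕ} {K : Type} [Field K]
    [Algebra ℚ K] (P : Fin d → (R →ₐ[ℚ] K)) : MultilinearMap ℚ (fun _ : Fin d => R) K :=
  (MultilinearMap.mkPiAlgebra ℚ (Fin d) K).compLinearMap (fun a => (P a).toLinearMap)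

theorem prodPointMultilinear_apply {R : Type} [CommRing R] [Algebra ℚ R] {d : ℕ} {K : Type}
    [Field K] [Algebra ℚ K] (P : Fin d → (R →ₐ[ℚ] K)) (x : Fin d → R) :
    prodPointMultilinear P x = ∏ a, P a (x a) := by
  simp [prodPointMultilinear]

/-- **GTA-3**: a `d`-tuple of points of `R` is a point of the `d`-th tensor power. -/
theorem tensorPoint : Fermat.Agent.H3.MW.TensorPointStatement := by
  classical
  intro R _ _ d K _ _ P
  refine ⟨liftAlgHom (prodPointMultilinear P) ?_ ?_, fun a => ?_⟩
  · rw [prodPointMultilinear_apply]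
    simp
  · intro x y
    rw [prodPointMultilinear_apply, prodPointMultilinear_apply, prodPointMultilinear_apply,
      ← Finset.prod_mul_distrib]
    refine Finset.prod_congr rfl fun b _ => ?_
    rw [Pi.mul_apply, map_mul]
  · ext r
    rw [AlgHom.comp_apply, singleAlgHom_apply, liftAlgHom_apply, lift.tprod,
      prodPointMultilinear_apply]
    rw [Finset.prod_eq_single a]
    · rw [MonoidHom.mulSingle_apply, Pi.mulSingle_eq_same]
    · intro b _ hb
      rw [MonoidHom.mulSingle_apply, Pi.mulSingle_eq_of_ne hb, map_one]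
    · intro h
      exact absurd (Finset.mem_univ a) h

end Fermat.Agent.H57.MW

end
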