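import Mathlib
import Fermat.Agent.H68.MW.GTInterfaces

/-!
# P-MW row 790 (MW-GT-CHEV-ADAPT, helper57): `ChevalleyCoreStatement → ChevalleyAlgStatement`

`B` a finitely generated `ℚ`-algebra, `f : B → K`, `𝔮` a maximal ideal containing `ker f`.  The
image `R` of `B_𝔮 → K` is a local subring of `K` whose residue field is a quotient of
`B / 𝔮`, a finite extension of `ℚ` (Zariski's lemma); the core statement gives a valuation ring
dominating `R`.
-/

set_option autoImplicit false
set_option linter.unusedSectionVars false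
set_option linter.style.haveILetI false

noncomputable section

namespace Fermat.Agent.H57.MW

open Fermat.Agent.H68.GT

/-- Ring homomorphisms commute with the evaluation of integer polynomials. -/
theorem map_aeval_int {A A' : Type*} [CommRing A] [CommRing A'] [Algebra ℤ A] [Algebra ℤ A']
    (φ : A →+* A') (x : A) (p : Polynomial ℤ) :
    φ (Polynomial.aeval x p) = Polynomial.aeval (φ x) p := by
  rw [Polynomial.aeval_def, Polynomial.aeval_def, Polynomial.hom_eval₂]
  congr 1
  exact RingHom.ext_int _ _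

/-- The residue field of a maximal ideal of a finitely generated `ℚ`-algebra is algebraic over
`ℤ`. -/
theorem residueField_isAlgebraic_int (B : Type) [CommRing B] [Algebra ℚ B]
    [Algebra.FiniteType ℚ B] (𝔮 : Ideal B) [h𝔮 : 𝔮.IsMaximal] :
    Algebra.IsAlgebraic ℤ 𝔮.ResidueField := by
  letI : Field (B ⧸ 𝔮) := Ideal.Quotient.field 𝔮
  haveI : Algebra.FiniteType ℚ (B ⧸ 𝔮) :=
    Algebra.FiniteType.of_surjective (Ideal.Quotient.mkₐ ℚ 𝔮) (Ideal.Quotient.mkₐ_surjective ℚ 𝔮)
  haveI : Module.Finite ℚ (B ⧸ 𝔮) := finite_of_finite_type_of_isJacobsonRing ℚ (B ⧸ 𝔮)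
  haveI : Algebra.IsAlgebraic ℚ (B ⧸ 𝔮) := Algebra.IsAlgebraic.of_finite ℚ (B ⧸ 𝔮)
  refine ⟨fun z => ?_⟩
  obtain ⟨w, rfl⟩ := (Ideal.bijective_algebraMap_quotient_residueField 𝔮).surjective z
  have hw : IsAlgebraic ℤ w :=
    (IsFractionRing.isAlgebraic_iff ℤ ℚ (B ⧸ 𝔮)).mpr (Algebra.IsAlgebraic.isAlgebraic w)
  obtain ⟨p, hp, hpw⟩ := hw
  refine ⟨p, hp, ?_⟩
  rw [← map_aeval_int (algebraMap (B ⧸ 𝔮) 𝔮.ResidueField) w p, hpw, map_zero]

/-- **GT-CHEV-ADAPT**. -/
theorem chevalleyAlg_of_core (h : ChevalleyCoreStatement) : ChevalleyAlgStatement := by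
  intro K _ _ B _ _ _ f 𝔮 h𝔮 hker
  haveI := h𝔮
  haveI : 𝔮.IsPrime := h𝔮.isPrime
  have hunit : ∀ y : 𝔮.primeCompl, IsUnit ((f : B →+* K) (y : B)) := by
    intro y
    refine IsUnit.mk0 _ fun h0 => ?_
    exact y.2 (hker (RingHom.mem_ker.mpr h0))
  set g : Localization.AtPrime 𝔮 →+* K := IsLocalization.lift hunit with hgdef
  have hg : ∀ b : B, g (algebraMap B (Localization.AtPrime 𝔮) b) = f b :=
    fun b => IsLocalization.lift_eq hunit b
  set R : LocalSubring K := LocalSubring.range g with hR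
  have hmemR : ∀ l : Localization.AtPrime 𝔮, g l ∈ R.toSubring := fun l => by
    show g l ∈ g.range
    exact ⟨l, rfl⟩
  have hexR : ∀ r : R.toSubring, ∃ l : Localization.AtPrime 𝔮, g l = (r : K) := fun r => by
    have h1 : (r : K) ∈ g.range := r.2
    exact h1
  -- elements of the maximal ideal go to nonunits
  have hnon : ∀ l ∈ IsLocalRing.maximalIdeal (Localization.AtPrime 𝔮),
      ¬ IsUnit (⟨g l, hmemR l⟩ : R.toSubring) := by
    intro l hl hu
    obtain ⟨u, hmul⟩ := hu.exists_right_inv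
    obtain ⟨l', hl'⟩ := hexR u
    have h1 : g (l * l') = 1 := by
      rw [map_mul, hl']
      exact congrArg Subtype.val hmul
    have h2 : IsUnit (1 - l * l') :=
      IsLocalRing.isUnit_one_sub_self_of_mem_nonunits _
        ((IsLocalRing.mem_maximalIdeal _).mp (Ideal.mul_mem_right l' _ hl))
    have h3 : g (1 - l * l') = 0 := by rw [map_sub, map_one, h1, sub_self]
    exact (h2.map g).ne_zero h3
  -- the residue field of `R` is algebraic over `ℤ`
  have hκ := residueField_isAlgebraic_int B 𝔮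
  have halgL : ∀ l : Localization.AtPrime 𝔮, ∃ p : Polynomial ℤ, p ≠ 0 ∧
      Polynomial.aeval l p ∈ IsLocalRing.maximalIdeal (Localization.AtPrime 𝔮) := by
    intro l
    obtain ⟨p, hp, hpz⟩ := hκ.isAlgebraic (IsLocalRing.residue (Localization.AtPrime 𝔮) l)
    refine ⟨p, hp, ?_⟩
    rw [← IsLocalRing.residue_eq_zero_iff,
      map_aeval_int (IsLocalRing.residue (Localization.AtPrime 𝔮)) l p]
    exact hpz
  have hRalg : Algebra.IsAlgebraic ℤ (IsLocalRing.ResidueField R.toSubring) := by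
    refine ⟨fun z => ?_⟩
    obtain ⟨r, rfl⟩ := IsLocalRing.residue_surjective z
    obtain ⟨l, hl⟩ := hexR r
    obtain ⟨p, hp, hpl⟩ := halgL l
    refine ⟨p, hp, ?_⟩
    rw [← map_aeval_int (IsLocalRing.residue R.toSubring) r p,
      IsLocalRing.residue_eq_zero_iff, IsLocalRing.mem_maximalIdeal, mem_nonunits_iff]
    have h3 : (Polynomial.aeval r p : R.toSubring) = ⟨g (Polynomial.aeval l p), hmemR _⟩ := by
      apply Subtype.ext
      have h4 := map_aeval_int (R.toSubring.subtype) r p
      have h5 := map_aeval_int g l p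
      rw [hl] at h5
      show R.toSubring.subtype (Polynomial.aeval r p) = g (Polynomial.aeval l p)
      rw [h4, h5]
      rfl
    rw [h3]
    exact hnon _ hpl
  obtain ⟨V, hRV, hV⟩ := h K R hRalg
  obtain ⟨hle, hloc⟩ := hRV
  refine ⟨V, fun b => ?_, fun b hb => ?_, hV⟩
  · have h1 : f b ∈ R.toSubring := by
      rw [← hg b]
      exact hmemR _
    exact hle h1
  · have h1 : algebraMap B (Localization.AtPrime 𝔮) b ∈
        IsLocalRing.maximalIdeal (Localization.AtPrime 𝔮) :=
      (IsLocalization.AtPrime.to_map_mem_maximal_iff (Localization.AtPrime 𝔮) 𝔮 b).mpr hb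
    have h2 := hnon _ h1
    have hmem : f b ∈ R.toSubring := by
      rw [← hg b]
      exact hmemR _
    have h3 : (⟨g (algebraMap B (Localization.AtPrime 𝔮) b), hmemR _⟩ : R.toSubring)
        = ⟨f b, hmem⟩ := Subtype.ext (hg b)
    rw [h3] at h2
    rw [ValuationSubring.mem_nonunits_iff_exists_mem_maximalIdeal]
    refine ⟨hle hmem, ?_⟩
    rw [IsLocalRing.mem_maximalIdeal, mem_nonunits_iff]
    intro hu
    apply h2
    obtain ⟨v, hv⟩ := isUnit_iff_exists_inv.mp hu
    -- the inclusion is a local homomorphism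
    have hincl : IsUnit (Subring.inclusion hle ⟨f b, hmem⟩) := by
      refine isUnit_iff_exists_inv.mpr ⟨⟨(v : K), v.2⟩, ?_⟩
      apply Subtype.ext
      exact congrArg Subtype.val hv
    exact hloc.map_nonunit _ hincl

end Fermat.Agent.H57.MW

end
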