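import Mathlib
import Fermat.Agent.H68.MW.GTInterfaces

/-!
# P-MW row 788 (MW-GT-CLEAR, helper57): clearing denominators in a partition of unity

If `1 = ∑ i, c_i * (a_i / b)` in `𝓢[1/b]` with `c_i ∈ ℚ[a_j / b : j]`, then
`b ^ (M + 1) = ∑ i, G_i(a, b) * a_i` in `𝓢` with `G_i` homogeneous of degree `M`.
-/

set_option autoImplicit false
set_option linter.unusedSectionVars false

noncomputable section

namespace Fermat.Agent.H57.MW

open Fermat.Agent.H68.GT MvPolynomial

section

variable {𝓢 : Type} [CommRing 𝓢] [Algebra ℚ 𝓢] {ιA : Type} (a : ιA → 𝓢) (b : 𝓢)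

/-- evaluation `none ↦ b`, `some i ↦ a i` -/
def evAB : MvPolynomial (Option ιA) ℚ →ₐ[ℚ] 𝓢 :=
  MvPolynomial.aeval (fun o : Option ιA => o.elim b a)

theorem evAB_X_none : evAB a b (X none) = b := by
  simp [evAB]

theorem evAB_X_some (i : ιA) : evAB a b (X (some i)) = a i := by
  simp [evAB]

/-- elements of `𝓢[1/b]` of the form `ev H / b ^ D`, `H` homogeneous of degree `D` -/
def IsHomFrac (z : Localization.Away b) : Prop :=
  ∃ (D : ℕ) (H : MvPolynomial (Option ιA) ℚ), H.IsHomogeneous D ∧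
    z * algebraMap 𝓢 (Localization.Away b) b ^ D
      = algebraMap 𝓢 (Localization.Away b) (evAB a b H)

theorem isHomFrac_algebraMap (q : ℚ) :
    IsHomFrac a b (algebraMap ℚ (Localization.Away b) q) := by
  refine ⟨0, C q, isHomogeneous_C _ q, ?_⟩
  rw [pow_zero, mul_one]
  have h1 : evAB a b (C q) = algebraMap ℚ 𝓢 q := by
    simp [evAB]
  rw [h1, ← IsScalarTower.algebraMap_apply]

theorem isHomFrac_frac (i : ιA) : IsHomFrac a b (frac b (a i)) := by
  refine ⟨1, X (some i), isHomogeneous_X _ _, ?_⟩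
  rw [pow_one, evAB_X_some, frac, Localization.mk_eq_mk']
  exact IsLocalization.mk'_spec _ (a i) (⟨b, Submonoid.mem_powers b⟩ : Submonoid.powers b)

theorem IsHomFrac.mul {z w : Localization.Away b} (hz : IsHomFrac a b z)
    (hw : IsHomFrac a b w) : IsHomFrac a b (z * w) := by
  obtain ⟨D₁, H₁, hH₁, h₁⟩ := hz
  obtain ⟨D₂, H₂, hH₂, h₂⟩ := hw
  refine ⟨D₁ + D₂, H₁ * H₂, hH₁.mul hH₂, ?_⟩
  rw [map_mul, map_mul, ← h₁, ← h₂, pow_add]
  ring

/-- raising the degree -/
theorem IsHomFrac.raise {z : Localization.Away b} {D : ℕ} {H : MvPolynomial (Option ιA) ℚ}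
    (hH : H.IsHomogeneous D)
    (h : z * algebraMap 𝓢 (Localization.Away b) b ^ D
      = algebraMap 𝓢 (Localization.Away b) (evAB a b H)) (E : ℕ) :
    (H * X none ^ E).IsHomogeneous (D + E) ∧
      z * algebraMap 𝓢 (Localization.Away b) b ^ (D + E)
        = algebraMap 𝓢 (Localization.Away b) (evAB a b (H * X none ^ E)) := by
  refine ⟨hH.mul ?_, ?_⟩
  · have h1 := (isHomogeneous_X ℚ (none : Option ιA)).pow E
    rwa [one_mul] at h1
  · rw [map_mul, map_mul, map_pow, map_pow, evAB_X_none, ← h, pow_add]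
    ring

theorem IsHomFrac.add {z w : Localization.Away b} (hz : IsHomFrac a b z)
    (hw : IsHomFrac a b w) : IsHomFrac a b (z + w) := by
  obtain ⟨D₁, H₁, hH₁, h₁⟩ := hz
  obtain ⟨D₂, H₂, hH₂, h₂⟩ := hw
  obtain ⟨k₁, e₁⟩ := IsHomFrac.raise a b hH₁ h₁ D₂
  obtain ⟨k₂, e₂⟩ := IsHomFrac.raise a b hH₂ h₂ D₁
  rw [add_comm D₂ D₁] at k₂ e₂
  refine ⟨D₁ + D₂, H₁ * X none ^ D₂ + H₂ * X none ^ D₁, k₁.add k₂, ?_⟩
  rw [map_add, map_add, ← e₁, ← e₂]
  ring

theorem isHomFrac_of_mem_adjoin {z : Localization.Away b}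
    (hz : z ∈ Algebra.adjoin ℚ (Set.range fun i => frac b (a i))) : IsHomFrac a b z := by
  induction hz using Algebra.adjoin_induction with
  | mem x hx =>
    obtain ⟨i, rfl⟩ := hx
    exact isHomFrac_frac a b i
  | algebraMap q => exact isHomFrac_algebraMap a b q
  | add x y _ _ hx hy => exact hx.add a b hy
  | mul x y _ _ hx hy => exact hx.mul a b hy

end

/-- **GT-CLEAR**. -/
theorem gtClear : GTClearStatement := by
  classical
  intro 𝓢 _ _ ιA _ a b c hc hsum
  have hT : ∀ i, IsHomFrac a b (c i) := fun i => isHomFrac_of_mem_adjoin a b (hc i)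
  choose Dd H hH hcH using hT
  -- a common degree
  set D : ℕ := ∑ i, Dd i with hD
  have hle : ∀ i, Dd i ≤ D := fun i =>
    Finset.single_le_sum (f := Dd) (fun _ _ => Nat.zero_le _) (Finset.mem_univ i)
  have hraise : ∀ i, (H i * X none ^ (D - Dd i)).IsHomogeneous D ∧
      c i * algebraMap 𝓢 (Localization.Away b) b ^ D
        = algebraMap 𝓢 (Localization.Away b) (evAB a b (H i * X none ^ (D - Dd i))) := by
    intro i
    have h1 := IsHomFrac.raise a b (hH i) (hcH i) (D - Dd i)
    rwa [Nat.add_sub_cancel' (hle i)] at h1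
  -- the identity in the localisation
  have hloc : algebraMap 𝓢 (Localization.Away b) (b ^ (D + 1))
      = algebraMap 𝓢 (Localization.Away b)
          (∑ i, evAB a b (H i * X none ^ (D - Dd i)) * a i) := by
    have hfrac : ∀ i, frac b (a i) * algebraMap 𝓢 (Localization.Away b) b
        = algebraMap 𝓢 (Localization.Away b) (a i) := by
      intro i
      rw [frac, Localization.mk_eq_mk']
      exact IsLocalization.mk'_spec _ (a i) (⟨b, Submonoid.mem_powers b⟩ : Submonoid.powers b)
    rw [map_sum, map_pow, pow_succ]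
    calc algebraMap 𝓢 (Localization.Away b) b ^ D * algebraMap 𝓢 (Localization.Away b) b
        = (∑ i, c i * frac b (a i)) * (algebraMap 𝓢 (Localization.Away b) b ^ D
            * algebraMap 𝓢 (Localization.Away b) b) := by rw [hsum, one_mul]
      _ = ∑ i, (c i * algebraMap 𝓢 (Localization.Away b) b ^ D)
            * (frac b (a i) * algebraMap 𝓢 (Localization.Away b) b) := by
          rw [Finset.sum_mul]
          refine Finset.sum_congr rfl fun i _ => ?_
          ring
      _ = ∑ i, algebraMap 𝓢 (Localization.Away b)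
            (evAB a b (H i * X none ^ (D - Dd i)) * a i) := by
          refine Finset.sum_congr rfl fun i _ => ?_
          rw [(hraise i).2, hfrac i]
          exact (map_mul (algebraMap 𝓢 (Localization.Away b)) _ _).symm
  obtain ⟨⟨_, N, rfl⟩, hN⟩ :=
    (IsLocalization.eq_iff_exists (Submonoid.powers b) (Localization.Away b)).mp hloc
  have hN' : b ^ N * b ^ (D + 1) = b ^ N * ∑ i, evAB a b (H i * X none ^ (D - Dd i)) * a i :=
    hN
  refine ⟨N + D, fun i => X none ^ N * (H i * X none ^ (D - Dd i)), fun i => ?_, ?_⟩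
  · have h1 := (isHomogeneous_X ℚ (none : Option ιA)).pow N
    rw [one_mul] at h1
    exact h1.mul (hraise i).1
  · have h2 : b ^ (N + D + 1) = b ^ N * b ^ (D + 1) := by ring
    rw [h2, hN', Finset.mul_sum]
    refine Finset.sum_congr rfl fun i _ => ?_
    have hev : evAB a b (X none ^ N * (H i * X none ^ (D - Dd i)))
        = b ^ N * evAB a b (H i * X none ^ (D - Dd i)) := by
      rw [map_mul, map_pow, evAB_X_none]
    show _ = evAB a b (X none ^ N * (H i * X none ^ (D - Dd i))) * a i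
    rw [hev, mul_assoc]

end Fermat.Agent.H57.MW

end
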