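import Mathlib
import Fermat.Agent.H15.MW.Skeleton

/-!
# P-MW row 707 (MW-N, helper57): a quasi-quadratic height gives the descent package for every
`n ≥ 2`

* `quasiQuad_nsmul` : `|h (k • x) - k² h x| ≤ C_k` for a function satisfying the approximate
  parallelogram law;
* `heightStatement_of_quad : QuadHeightStatement N → ∀ n ≥ 2, HeightStatement N n`.
-/

set_option autoImplicit false

namespace Fermat.Agent.H57.MW

section abstract

variable {G : Type*} [AddCommGroup G] {h : G → ℝ} {C : ℝ}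

theorem quasiQuad_zero (hpar : ∀ x y, |h (x + y) + h (x - y) - 2 * (h x + h y)| ≤ C) :
    h 0 ≤ C / 2 ∧ -(C / 2) ≤ h 0 := by
  have h0 := hpar 0 0
  simp only [add_zero, sub_zero] at h0
  have h1 := abs_le.mp h0
  constructor <;> linarith [h1.1, h1.2]

/-- `|h (k • x) - k² h x| ≤ C_k`. -/
theorem quasiQuad_nsmul (hpar : ∀ x y, |h (x + y) + h (x - y) - 2 * (h x + h y)| ≤ C) :
    ∀ k : ℕ, ∃ D : ℝ, ∀ x : G, |h (k • x) - (k : ℝ) ^ 2 * h x| ≤ D := by
  intro k
  induction k using Nat.twoStepInduction with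
  | zero =>
    refine ⟨|C / 2|, fun x => ?_⟩
    have h0 := quasiQuad_zero hpar
    rw [zero_smul]
    simp only [Nat.cast_zero, ne_eq, OfNat.ofNat_ne_zero, not_false_eq_true, zero_pow, zero_mul,
      sub_zero]
    rw [abs_le]
    have h2 := abs_le.mp (le_refl |C / 2|)
    constructor <;> linarith [h0.1, h0.2, h2.1, h2.2]
  | one =>
    refine ⟨0, fun x => ?_⟩
    simp
  | more k ih0 ih1 =>
    obtain ⟨D0, hD0⟩ := ih0
    obtain ⟨D1, hD1⟩ := ih1
    refine ⟨2 * D1 + D0 + C, fun x => ?_⟩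
    have h1 := abs_le.mp (hpar ((k + 1) • x) x)
    have e1 : (k + 1) • x + x = (k + 2) • x := by
      rw [add_smul (k + 1) 1 x, one_smul] 
    have e2 : (k + 1) • x - x = k • x := by
      rw [add_smul, one_smul, add_sub_cancel_right]
    rw [e1, e2] at h1
    have h2 := abs_le.mp (hD0 x)
    have h3 := abs_le.mp (hD1 x)
    push_cast at h2 h3 ⊢
    rw [abs_le]
    constructor <;> nlinarith [h1.1, h1.2, h2.1, h2.2, h3.1, h3.2]

/-- The descent package for multiplication by `n ≥ 2` from the approximate parallelogram law. -/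
theorem descent_of_quasiQuad (h0 : ∀ x, 0 ≤ h x)
    (hpar : ∀ x y, |h (x + y) + h (x - y) - 2 * (h x + h y)| ≤ C) (n : ℕ) (hn : 2 ≤ n) :
    ∃ (a b c₀ : ℝ) (c : G → ℝ), 0 ≤ a ∧ a < b ∧ (∀ g x, h x ≤ a * h (g + x) + c g) ∧
      ∀ x, b * h x - c₀ ≤ h (n • x) := by
  obtain ⟨D, hD⟩ := quasiQuad_nsmul hpar n
  refine ⟨2, (n : ℝ) ^ 2, D, fun g => 2 * h (-g) + C, by norm_num, ?_, fun g x => ?_,
    fun x => ?_⟩
  · have h2 : (2 : ℝ) ≤ n := by exact_mod_cast hn
    nlinarith
  · have h1 := abs_le.mp (hpar (g + x) (-g))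
    have e1 : g + x + -g = x := by abel
    rw [e1] at h1
    have h2 := h0 (g + x - -g)
    linarith [h1.2]
  · have h1 := abs_le.mp (hD x)
    linarith [h1.1]

end abstract

open Fermat.Agent.H15.MW

/-- **MW-N**: a quasi-quadratic height package gives the height package for every `n ≥ 2`. -/
theorem heightStatement_of_quad (N n : ℕ) (hn : 2 ≤ n) :
    QuadHeightStatement N → HeightStatement N n := by
  rintro ⟨h, C, h0, hpar, hN⟩
  obtain ⟨a, b, c₀, c, ha, hab, h1, h2⟩ := descent_of_quasiQuad h0 hpar n hn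
  exact ⟨h, a, b, c₀, c, ha, hab, h1, h2, hN⟩

end Fermat.Agent.H57.MW
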